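import Mathlib

/-!
# Row LT, tower T7, leaf T7.L2.1.RT4 `PushParC` (registry 2582): Mathlib-only core (helper222)

OFF-MAIN.  `N` linear with `N (B (inl i)) = b i`, `N (B (inr j)) = 0` maps the fundamental
parallelepiped of `B` onto the one of `b` and the normalised Lebesgue measure to the normalised
Lebesgue measure.  No project vocabulary; the VERBATIM leaf is in `PushPar.lean`.
-/

set_option autoImplicit false

open MeasureTheory

noncomputable section

namespace Fermat.Agent.LT.T7.H222

/-- The unit cube `[0,1)^κ`. -/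
def cube222 (κ : Type) : Set (κ → ℝ) := Set.pi Set.univ fun _ : κ => Set.Ico (0 : ℝ) 1

theorem measurableSet_cube222 (κ : Type) [Fintype κ] : MeasurableSet (cube222 κ) :=
  MeasurableSet.pi Set.countable_univ fun _ _ => measurableSet_Ico

theorem volume_cube222 (κ : Type) [Fintype κ] : volume (cube222 κ) = 1 := by
  unfold cube222
  rw [volume_pi, Measure.pi_pi]
  simp [Real.volume_Ico]

theorem mem_cube222 {κ : Type} (x : κ → ℝ) : x ∈ cube222 κ ↔ ∀ k, x k ∈ Set.Ico (0 : ℝ) 1 := by
  simp [cube222]

/-- The normalised integral over the fundamental parallelepiped of a basis is the integral over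
the unit cube in the coordinates of the basis (no integrability hypothesis). -/
theorem normalized_integral_fundamentalDomain222 {κ κ' : Type} [Fintype κ] [Fintype κ']
    (B : Module.Basis κ ℝ (κ' → ℝ)) (f : (κ' → ℝ) → ℂ) :
    (((volume (ZSpan.fundamentalDomain B)).toReal : ℝ) : ℂ)⁻¹
        * ∫ t in ZSpan.fundamentalDomain B, f t
      = ∫ x in cube222 κ, f (B.equivFun.symm x) := by
  classical
  set e : (κ' → ℝ) ≃L[ℝ] (κ → ℝ) := B.equivFun.toContinuousLinearEquiv with he
  have hecoe : ∀ t, e t = B.equivFun t := fun t => rfl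
  have hesymm : ∀ x, e.symm x = B.equivFun.symm x := fun x => rfl
  set em : (κ' → ℝ) ≃ᵐ (κ → ℝ) := e.toHomeomorph.toMeasurableEquiv with hem
  have hemcoe : ∀ t, em t = B.equivFun t := fun t => rfl
  have hemsymm : ∀ x, em.symm x = B.equivFun.symm x := fun x => rfl
  set ν : Measure (κ → ℝ) := Measure.map e (volume : Measure (κ' → ℝ)) with hν
  have : ν.IsAddHaarMeasure := e.isAddHaarMeasure_map volume
  have hνem : Measure.map em (volume : Measure (κ' → ℝ)) = ν := rfl
  set c : NNReal := Measure.addHaarScalarFactor ν (volume : Measure (κ → ℝ)) with hc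
  have hsm : ν = c • (volume : Measure (κ → ℝ)) :=
    Measure.isAddLeftInvariant_eq_smul ν volume
  have hQ := measurableSet_cube222 κ
  have hpre : em ⁻¹' cube222 κ = ZSpan.fundamentalDomain B := by
    ext t
    simp only [Set.mem_preimage, mem_cube222, ZSpan.mem_fundamentalDomain, hemcoe,
      Module.Basis.equivFun_apply]
  -- the volume of the parallelepiped
  have hvol : volume (ZSpan.fundamentalDomain B) = (c : ENNReal) := by
    have h1 : ν (cube222 κ) = volume (em ⁻¹' cube222 κ) := by
      rw [← hνem]; exact em.map_apply _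
    rw [← hpre, ← h1, hsm]
    simp [volume_cube222]
  have hc0 : c ≠ 0 := by
    intro h0
    have := ZSpan.measure_fundamentalDomain_ne_zero B (μ := (volume : Measure (κ' → ℝ)))
    rw [hvol, h0] at this
    exact this (by simp)
  -- change of variables
  have hint : ∫ t in ZSpan.fundamentalDomain B, f t
      = (c : ℝ) • ∫ x in cube222 κ, f (B.equivFun.symm x) := by
    have h2 := setIntegral_map_equiv (μ := (volume : Measure (κ' → ℝ))) em
      (fun x => f (B.equivFun.symm x)) (cube222 κ)
    rw [hpre, hνem] at h2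
    have h3 : ∀ t, f (B.equivFun.symm (em t)) = f t := by
      intro t
      rw [hemcoe, LinearEquiv.symm_apply_apply]
    simp only [h3] at h2
    rw [← h2, hsm, Measure.restrict_smul, integral_smul_nnreal_measure]
    rfl
  rw [hint, hvol]
  simp only [ENNReal.coe_toReal, Complex.real_smul]
  have hcC : ((c : ℝ) : ℂ) ≠ 0 := by
    exact_mod_cast hc0
  field_simp

/-- Fubini on the unit cube of a sum type: a function of the `inl` coordinates. -/
theorem integral_cube_sum_inl222 {ι J : Type} [Fintype ι] [Fintype J] (g : (ι → ℝ) → ℂ) :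
    ∫ x in cube222 (ι ⊕ J), g (fun i => x (Sum.inl i)) = ∫ y in cube222 ι, g y := by
  classical
  have hQ := measurableSet_cube222 (ι ⊕ J)
  have hQι := measurableSet_cube222 ι
  have hQJ := measurableSet_cube222 J
  set E := MeasurableEquiv.sumPiEquivProdPi (fun _ : ι ⊕ J => ℝ) with hE
  have hmp : MeasurePreserving E volume volume :=
    volume_measurePreserving_sumPiEquivProdPi (fun _ : ι ⊕ J => ℝ)
  have hE1 : ∀ x : ι ⊕ J → ℝ, (E x).1 = fun i => x (Sum.inl i) := fun x => rfl
  have hE2 : ∀ x : ι ⊕ J → ℝ, (E x).2 = fun j => x (Sum.inr j) := fun x => rfl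
  -- the integrand on the product
  set Φ : (ι → ℝ) × (J → ℝ) → ℂ :=
    fun p => (cube222 ι).indicator g p.1 * (cube222 J).indicator (fun _ => (1 : ℂ)) p.2 with hΦ
  have hcomp : ∀ x : ι ⊕ J → ℝ,
      (cube222 (ι ⊕ J)).indicator (fun x => g (fun i => x (Sum.inl i))) x = Φ (E x) := by
    intro x
    simp only [hΦ, hE1, hE2]
    by_cases hx : x ∈ cube222 (ι ⊕ J)
    · have h1 : (fun i => x (Sum.inl i)) ∈ cube222 ι := by
        rw [mem_cube222] at hx ⊢
        exact fun i => hx _
      have h2 : (fun j => x (Sum.inr j)) ∈ cube222 J := by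
        rw [mem_cube222] at hx ⊢
        exact fun j => hx _
      rw [Set.indicator_of_mem hx, Set.indicator_of_mem h1, Set.indicator_of_mem h2, mul_one]
    · rw [Set.indicator_of_notMem hx]
      by_cases h1 : (fun i => x (Sum.inl i)) ∈ cube222 ι
      · have h2 : (fun j => x (Sum.inr j)) ∉ cube222 J := by
          intro h2
          apply hx
          rw [mem_cube222] at h1 h2 ⊢
          rintro (i | j)
          · exact h1 i
          · exact h2 j
        rw [Set.indicator_of_notMem h2, mul_zero]
      · rw [Set.indicator_of_notMem h1, zero_mul]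
  calc ∫ x in cube222 (ι ⊕ J), g (fun i => x (Sum.inl i))
      = ∫ x, (cube222 (ι ⊕ J)).indicator (fun x => g (fun i => x (Sum.inl i))) x := by
        rw [integral_indicator hQ]
    _ = ∫ x, Φ (E x) := by simp only [hcomp]
    _ = ∫ p, Φ p := hmp.integral_comp' Φ
    _ = (∫ y, (cube222 ι).indicator g y) * ∫ z, (cube222 J).indicator (fun _ => (1 : ℂ)) z := by
        rw [hΦ]
        exact integral_prod_mul (μ := (volume : Measure (ι → ℝ)))
          (ν := (volume : Measure (J → ℝ))) _ _
    _ = ∫ y in cube222 ι, g y := by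
        rw [integral_indicator hQι, integral_indicator hQJ]
        simp [volume_cube222, Measure.real]

/-- **Core of `PushParC`.** -/
theorem pushPar_core222 (ι ι' J : Type) [Fintype ι] [Fintype ι'] [Fintype J]
    (N : (ι' → ℝ) →ₗ[ℝ] (ι → ℝ)) (b : Module.Basis ι ℝ (ι → ℝ))
    (B : Module.Basis (ι ⊕ J) ℝ (ι' → ℝ))
    (hl : ∀ i, N (B (Sum.inl i)) = b i) (hr : ∀ j, N (B (Sum.inr j)) = 0) :
    (∀ t' ∈ ZSpan.fundamentalDomain B, N t' ∈ ZSpan.fundamentalDomain b) ∧
    (∀ t ∈ ZSpan.fundamentalDomain b, ∃ t' ∈ ZSpan.fundamentalDomain B, N t' = t) ∧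
    ∀ h : (ι → ℝ) → ℂ, IntegrableOn h (ZSpan.fundamentalDomain b) volume →
      (((volume (ZSpan.fundamentalDomain B)).toReal : ℝ) : ℂ)⁻¹
          * ∫ t' in ZSpan.fundamentalDomain B, h (N t')
        = (((volume (ZSpan.fundamentalDomain b)).toReal : ℝ) : ℂ)⁻¹
          * ∫ t in ZSpan.fundamentalDomain b, h t := by
  classical
  -- `N` in coordinates
  have hN : ∀ x : ι ⊕ J → ℝ, N (B.equivFun.symm x) = b.equivFun.symm (fun i => x (Sum.inl i)) := by
    intro x
    rw [Module.Basis.equivFun_symm_apply, Module.Basis.equivFun_symm_apply, map_sum,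
      Fintype.sum_sum_type]
    simp only [map_smul, hl, hr, smul_zero, Finset.sum_const_zero, add_zero]
  have hrepr : ∀ t' : ι' → ℝ, ∀ i, b.repr (N t') i = B.repr t' (Sum.inl i) := by
    intro t' i
    have h1 : t' = B.equivFun.symm (B.equivFun t') := (LinearEquiv.symm_apply_apply _ _).symm
    have h2 : N t' = b.equivFun.symm (fun i => B.equivFun t' (Sum.inl i)) := by
      conv_lhs => rw [h1]
      exact hN _
    have h3 : b.equivFun (N t') = fun i => B.equivFun t' (Sum.inl i) := by
      rw [h2, LinearEquiv.apply_symm_apply]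
    have h4 := congrFun h3 i
    simpa [Module.Basis.equivFun_apply] using h4
  refine ⟨?_, ?_, ?_⟩
  · intro t' ht' i
    rw [hrepr]
    exact ht' _
  · intro t ht
    refine ⟨B.equivFun.symm (Sum.elim (fun i => b.repr t i) (fun _ : J => (0 : ℝ))), ?_, ?_⟩
    · intro k
      have : B.repr (B.equivFun.symm (Sum.elim (fun i => b.repr t i) (fun _ : J => (0 : ℝ)))) k
          = Sum.elim (fun i => b.repr t i) (fun _ : J => (0 : ℝ)) k := by
        have h5 := LinearEquiv.apply_symm_apply B.equivFun
          (Sum.elim (fun i => b.repr t i) (fun _ : J => (0 : ℝ)))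
        have h6 := congrFun h5 k
        rw [Module.Basis.equivFun_apply] at h6
        exact h6
      rw [this]
      rcases k with i | j
      · exact ht i
      · simp
    · rw [hN]
      have : (fun i : ι => Sum.elim (fun i => b.repr t i) (fun _ : J => (0 : ℝ)) (Sum.inl i))
          = b.equivFun t := by
        ext i
        simp [Module.Basis.equivFun_apply]
      rw [this, LinearEquiv.symm_apply_apply]
  · intro h _
    rw [normalized_integral_fundamentalDomain222 B (fun t' => h (N t')),
      normalized_integral_fundamentalDomain222 b h]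
    simp only [hN]
    exact integral_cube_sum_inl222 (J := J) (fun y => h (b.equivFun.symm y))

end Fermat.Agent.LT.T7.H222

end
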