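import Fermat.Agent.LT.T7.H193.NatMatchSpec
import Fermat.Agent.LT.T7.H222.PushParCore

/-!
# Row LT, tower T7, leaf T7.L2.1.RT4 `PushParC` (registry 2582): PROVED, VERBATIM (helper222)

OFF-MAIN.  Spec: `Fermat/Agent/LT/T7/H193/NatMatchSpec.lean` of helper193@2b431d43c
(byte-identical copy, sha256 4d7f0df5b118c396; closure vendored byte-identical).
-/

set_option autoImplicit false

namespace Fermat.Agent.LT.T7.H222

/-- **RT.4 `PushParC`** (VERBATIM): `N` maps the fundamental parallelepiped of `B` onto the one of
`b` and the normalised Lebesgue measure to the normalised Lebesgue measure. -/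
theorem pushParC222 : Fermat.Agent.LT.T7.H193.PushParC := by
  intro ι ι' J _ _ _ N b B hl hr
  exact pushPar_core222 ι ι' J N b B hl hr

end Fermat.Agent.LT.T7.H222
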